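/-
Assembly of the dimension formula `dim S₂(Γ₀(N)) = g(X₀(N))` from
* the lower bound `μ + 2 ≤ 2 dim S₂ + s + t + u` (ES-P11),
* the cohomological bound `dim H¹_par + s + t + u ≤ μ + 2` (ES-P12),
* injectivity of the period map `S₂ × S₂ → H¹_par` (S21),
* `fixDim` = orbit counts (ES-P13) and the combinatorics of `SL₂(ℤ)/Γ₀(N)`.
-/
import Fermat.Agent.S21.Assembly
import Fermat.Agent.ES.Cohomology
import Fermat.Agent.ES.FixDim
import Fermat.Agent.Lib.Gamma0Cosets
import Fermat.Prelude.Def_ModularCurve_GenusNumerics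

set_option autoImplicit false

namespace Fermat.Agent.S20

open CongruenceSubgroup ModularGroup Fermat.Agent.ES ModularCurve ModularCurve.Period
open scoped MatrixGroups

variable (N : ℕ) [NeZero N]

omit [NeZero N] in
lemma neg_one_mem_Gamma0 : (-1 : SL(2, ℤ)) ∈ Gamma0 N := by
  rw [Gamma0_mem]
  simp

/-- The upper bound `2 dim S₂ + s + t + u ≤ μ + 2`. -/
theorem upper_bound :
    2 * Module.finrank ℂ (CuspForm (Gamma0 N) 2) + fixDim (Gamma0 N) S + fixDim (Gamma0 N) T
      + fixDim (Gamma0 N) (S * T) ≤ (Gamma0 N).index + 2 := by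
  obtain ⟨hfin, hle⟩ := finrank_parabolicHoms_add_le (Gamma0 N) (neg_one_mem_Gamma0 N)
  have hinj := Fermat.Agent.S21.periodHomPair_injective N
  have hle' := Fermat.Agent.S21.range_periodHomPair_le N
  let φ : (CuspForm (Gamma0 N) 2 × CuspForm (Gamma0 N) 2) →ₗ[ℂ] parabolicHoms ℂ (Gamma0 N) ℂ :=
    (periodHomPair N).codRestrict _ (fun x => hle' ⟨x, rfl⟩)
  have hφ : Function.Injective φ := fun x y hxy => hinj (congrArg Subtype.val hxy)
  have hfd : Module.Finite ℂ (CuspForm (Gamma0 N) 2 × CuspForm (Gamma0 N) 2) :=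
    Module.Finite.of_injective φ hφ
  have hfd1 : Module.Finite ℂ (CuspForm (Gamma0 N) 2) :=
    Module.Finite.of_surjective (LinearMap.fst ℂ (CuspForm (Gamma0 N) 2) (CuspForm (Gamma0 N) 2))
      LinearMap.fst_surjective
  have h1 := LinearMap.finrank_le_finrank_of_injective hφ
  rw [Module.finrank_prod] at h1
  omega

/-- The dimension formula, given the lower bound of ES-P11. -/
theorem dim_formula_of_lower
    (hlow : (Gamma0 N).index + 2 ≤ 2 * Module.finrank ℂ (CF (Gamma0 N) 2) + fixDim (Gamma0 N) S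
      + fixDim (Gamma0 N) T + fixDim (Gamma0 N) (S * T)) :
    (Module.finrank ℂ (CuspForm (Gamma0 N) 2) : ℚ) = ModularCurve.genusFormula N := by
  have hup := upper_bound N
  have hCF : Module.finrank ℂ (CF (Gamma0 N) 2) = Module.finrank ℂ (CuspForm (Gamma0 N) 2) :=
    (CFequiv (Gamma0 N) 2).finrank_eq.symm
  rw [hCF] at hlow
  have hS := two_mul_fixDim (Γ := Gamma0 N) S (fun x => by rw [Coh.S_sq]; exact Coh.neg_one_smul_X (neg_one_mem_Gamma0 N) x)
  have hST := three_mul_fixDim (Γ := Gamma0 N) (S * T)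
    (fun x => by rw [Coh.ST_cube]; exact Coh.neg_one_smul_X (neg_one_mem_Gamma0 N) x)
  have hT := fixDim_eq_card_orbits (Γ := Gamma0 N) T
  rw [Fermat.Agent.Lib.Gamma0Cosets.index_Gamma0 N] at *
  have e1 : Nat.card (MulAction.fixedBy (X (Gamma0 N)) S) = nuTwo N :=
    Fermat.Agent.Lib.Gamma0Cosets.card_fixedBy_S N
  have e2 : Nat.card (MulAction.fixedBy (X (Gamma0 N)) (S * T)) = nuThree N :=
    Fermat.Agent.Lib.Gamma0Cosets.card_fixedBy_ST N
  have e3 : Nat.card (MulAction.orbitRel.Quotient (Subgroup.zpowers T) (X (Gamma0 N)))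
      = cuspCount N := Fermat.Agent.Lib.Gamma0Cosets.card_orbits_T N
  rw [e1] at hS
  rw [e2] at hST
  rw [e3] at hT
  have key : 2 * Module.finrank ℂ (CuspForm (Gamma0 N) 2) + fixDim (Gamma0 N) S
      + fixDim (Gamma0 N) T + fixDim (Gamma0 N) (S * T) = dedekindPsi N + 2 := le_antisymm hup hlow
  unfold genusFormula
  have k1 : (2 * (Module.finrank ℂ (CuspForm (Gamma0 N) 2) : ℚ) + fixDim (Gamma0 N) S
      + fixDim (Gamma0 N) T + fixDim (Gamma0 N) (S * T)) = dedekindPsi N + 2 := by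
    exact_mod_cast key
  have k2 : (2 * (fixDim (Gamma0 N) S : ℚ)) = dedekindPsi N + nuTwo N := by exact_mod_cast hS
  have k3 : (3 * (fixDim (Gamma0 N) (S * T) : ℚ)) = dedekindPsi N + 2 * nuThree N := by
    exact_mod_cast hST
  have k4 : (fixDim (Gamma0 N) T : ℚ) = cuspCount N := by exact_mod_cast hT
  linarith

end Fermat.Agent.S20
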